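import Fermat.Agent.AbelianGeometric.Main
import Fermat.Agent.PadicCharacters.Main

/-!
# Geometric characters, finite image, and a representation that is not geometric

A character Hodge–Tate at `p` is a Dirichlet character times a power of the cyclotomic one.
-/

set_option autoImplicit false
set_option linter.unusedSectionVars false

noncomputable section

open Finset FA.TateSen FA.Sen FA.PadicHodge FA.PadicDescent FA.PadicChar
open scoped Nat

namespace FA.AbelianGeometric

variable {p : ℕ} [hp : Fact p.Prime] {d : Type} [Fintype d] [DecidableEq d]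

local notation "Qb" => AlgebraicClosure ℚ
local notation "GQ" => AlgebraicClosure ℚ ≃ₐ[ℚ] AlgebraicClosure ℚ
local notation "Cp" => ℂ_[p]

/-- A character as a representation of dimension one. -/
def scalarRep (η : GQ →* ℚ_[p]) : GQ →* Matrix Unit Unit ℚ_[p] :=
  (Matrix.diagonalRingHom Unit ℚ_[p]).toMonoidHom.comp (MonoidHom.pi fun _ => η)

theorem continuous_scalarRep {η : GQ →* ℚ_[p]} (hη : Continuous η) : Continuous (scalarRep η) :=
  Continuous.matrix_diagonal (continuous_pi fun _ => hη)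

theorem commute_scalarRep (η : GQ →* ℚ_[p]) (σ τ : GQ) :
    Commute (scalarRep η σ) (scalarRep η τ) :=
  (Commute.all (fun _ : Unit => η σ) fun _ => η τ).map (Matrix.diagonalRingHom Unit ℚ_[p])

theorem atP_scalarRep (η : GQ →* ℚ_[p]) :
    atP (scalarRep η) = charRep (η.comp (localGaloisToGlobal p)) := rfl

variable (p) in
/-- The cyclotomic character with values in `ℚ_p`. -/
def cycQ : GQ →* ℚ_[p] where
  toFun σ := ((FA.JTorsion.cycP p σ : ℤ_[p]) : ℚ_[p])
  map_one' := by rw [map_one, Units.val_one, PadicInt.coe_one]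
  map_mul' σ τ := by rw [map_mul, Units.val_mul, PadicInt.coe_mul]

theorem cycQ_apply (σ : GQ) : cycQ p σ = ((FA.JTorsion.cycP p σ : ℤ_[p]) : ℚ_[p]) := rfl

theorem cycQ_ne_zero (σ : GQ) : cycQ p σ ≠ 0 := by
  rw [cycQ_apply, Ne, PadicInt.coe_eq_zero]
  exact (FA.JTorsion.cycP p σ).ne_zero

theorem continuous_cycQ : Continuous (cycQ p) := by
  have h : Continuous fun σ : GQ => (FA.JTorsion.cycP p σ : ℤ_[p]) :=
    Units.continuous_val.comp (FA.GaloisAbelianisation.continuous_cycP p)
  exact continuous_subtype_val.comp h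

theorem exists_finite_order {η : GQ →* ℚ_[p]} {H : Subgroup GQ} (hH : IsOpen (H : Set GQ))
    (h : ∀ σ ∈ H, η σ = 1) : ∃ m, 0 < m ∧ ∀ σ, η σ ^ m = 1 := by
  obtain ⟨V, hV⟩ := ProfiniteGrp.exist_openNormalSubgroup_sub_open_nhds_of_one hH H.one_mem
  have : V.toSubgroup.Normal := V.isNormal'
  have : Finite (GQ ⧸ V.toSubgroup) := V.toSubgroup.quotient_finite_of_isOpen V.isOpen'
  have : V.toSubgroup.FiniteIndex := Subgroup.finiteIndex_of_finite_quotient
  exact ⟨V.toSubgroup.index, Nat.pos_of_ne_zero Subgroup.FiniteIndex.index_ne_zero,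
    fun σ => by rw [← map_pow, h _ (hV (Subgroup.pow_index_mem V.toSubgroup σ))]⟩

theorem isOpen_eq_one_of_finite {X : Type*} [TopologicalSpace X] [T1Space X] [One X] {f : GQ → X}
    (hf : Continuous f) (h : (Set.range f).Finite) : IsOpen {σ | f σ = 1} := by
  have e : {σ | f σ = 1} = f ⁻¹' (Set.range f \ {1})ᶜ := by
    ext σ
    simp
  rw [e]
  exact (h.sdiff (t := {1})).isClosed.isOpen_compl.preimage hf

theorem isOpen_ker_of_pow {η : GQ →* ℚ_[p]} (hη : Continuous η) {m : ℕ} (hm : 0 < m)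
    (h : ∀ σ, η σ ^ m = 1) : IsOpen (η.ker : Set GQ) :=
  isOpen_eq_one_of_finite hη ((finite_roots hm).subset (by rintro _ ⟨σ, rfl⟩; exact h σ))

theorem isCycSum_scalarRep {η : GQ →* ℚ_[p]} {n : ℤ} {H : Subgroup GQ}
    (h : ∀ σ ∈ H, η σ = cycQ p σ ^ n) : IsCycSum (scalarRep η) H 1 fun _ => n :=
  fun σ hσ => by
    rw [Units.val_one, mul_one, one_mul]
    exact congrArg Matrix.diagonal (funext fun _ => h σ hσ)

/-- **A geometric character is a power of the cyclotomic one up to finite order.** -/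
theorem geometric_character_iff {η : GQ →* ℚ_[p]} (hη : Continuous η) :
    (IsHodgeTate (cpRep (charRep (η.comp (localGaloisToGlobal p)))) ↔
      ∃ (ε : GQ →* ℚ_[p]) (n : ℤ), Continuous ε ∧ (∃ m, 0 < m ∧ ∀ σ, ε σ ^ m = 1) ∧
        ∀ σ, η σ = ε σ * cycQ p σ ^ n) ∧
    (IsDeRham (charRep (η.comp (localGaloisToGlobal p))) ↔
      IsHodgeTate (cpRep (charRep (η.comp (localGaloisToGlobal p))))) := by
  have hc := continuous_scalarRep hη
  have hcomm := commute_scalarRep η
  rw [← atP_scalarRep]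
  refine ⟨⟨fun h => ?_, ?_⟩, (abelian_geometric_iff hc hcomm).2⟩
  · obtain ⟨H, hH, C, j, hj⟩ := exists_isCycSum hc hcomm h
    set n := j ()
    refine ⟨{ toFun := fun σ => η σ * cycQ p σ ^ (-n)
              map_one' := by rw [map_one, map_one, one_zpow, one_mul]
              map_mul' := fun σ τ => by rw [map_mul, map_mul, mul_zpow]; ring }, n,
      hη.mul (continuous_cycQ.zpow₀ (-n) fun σ => Or.inl (cycQ_ne_zero σ)), ?_, fun σ => ?_⟩
    · refine exists_finite_order hH fun σ hσ => ?_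
      show η σ * cycQ p σ ^ (-n) = 1
      have h1 := congrFun (congrFun (hj σ hσ) ()) ()
      have hC : (C : Matrix Unit Unit ℚ_[p]) () () ≠ 0 := by
        have h2 := ((Matrix.isUnit_iff_isUnit_det _).1 C.isUnit).ne_zero
        rwa [Matrix.det_unique] at h2
      rw [Matrix.mul_apply, Fintype.sum_unique, Matrix.mul_diagonal,
        show scalarRep η σ () () = η σ from rfl] at h1
      rw [mul_comm ((C : Matrix Unit Unit ℚ_[p]) () ())] at h1
      rw [mul_right_cancel₀ hC h1, ← cycQ_apply, ← zpow_add₀ (cycQ_ne_zero σ), add_neg_cancel,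
        zpow_zero]
    · show η σ = η σ * cycQ p σ ^ (-n) * cycQ p σ ^ n
      rw [mul_assoc, ← zpow_add₀ (cycQ_ne_zero σ), neg_add_cancel, zpow_zero, mul_one]
  · rintro ⟨ε, n, hε, ⟨m, hm, hεm⟩, h⟩
    exact (abelian_geometric_iff hc hcomm).1.2 ⟨ε.ker, isOpen_ker_of_pow hε hm hεm, 1, _,
      isCycSum_scalarRep fun σ hσ => by rw [h σ, MonoidHom.mem_ker.1 hσ, one_mul]⟩

/-- **The exponent of a geometric character is unique.** -/
theorem exponent_unique {η ε ε' : GQ →* ℚ_[p]} {n n' : ℤ} (hε : Continuous ε)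
    (hε' : Continuous ε') {m m' : ℕ} (hm : 0 < m) (hm' : 0 < m') (h₁ : ∀ σ, ε σ ^ m = 1)
    (h₁' : ∀ σ, ε' σ ^ m' = 1) (h : ∀ σ, η σ = ε σ * cycQ p σ ^ n)
    (h' : ∀ σ, η σ = ε' σ * cycQ p σ ^ n') : n = n' := by
  by_contra hne
  set H := ε.ker ⊓ ε'.ker
  have hH : IsOpen (H : Set GQ) := by
    rw [Subgroup.coe_inf]
    exact (isOpen_ker_of_pow hε hm h₁).inter (isOpen_ker_of_pow hε' hm' h₁')
  have e := card_weight_eq_of_open (isOpen_locPre hH)
    (conj_of_isCycSum (isCycSum_scalarRep (n := n) (H := H) fun σ hσ => by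
      rw [h σ, MonoidHom.mem_ker.1 hσ.1, one_mul]))
    (conj_of_isCycSum (isCycSum_scalarRep (n := n') (H := H) fun σ hσ => by
      rw [h' σ, MonoidHom.mem_ker.1 hσ.2, one_mul])) n
  simp [Ne.symm hne] at e

/-- The automorphisms fixing the roots of unity of order dividing `k!`. -/
def rootsFix (k : ℕ) : Subgroup GQ :=
  (IntermediateField.adjoin ℚ {μ : Qb | μ ^ k ! = 1}).fixingSubgroup

theorem mem_rootsFix {k : ℕ} {σ : GQ} (h : ∀ μ : Qb, μ ^ k ! = 1 → σ μ = μ) :
    σ ∈ rootsFix k := by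
  rw [rootsFix, IntermediateField.mem_fixingSubgroup_iff]
  intro x hx
  have hle : IntermediateField.adjoin ℚ {μ : Qb | μ ^ k ! = 1} ≤
      IntermediateField.fixedField (Subgroup.zpowers σ) := by
    refine IntermediateField.adjoin_le_iff.2 fun z hz => ?_
    rintro ⟨τ, hτ⟩
    have : Subgroup.zpowers σ ≤ MulAction.stabilizer GQ z := by
      rw [Subgroup.zpowers_le]; exact h z hz
    exact this hτ
  exact hle hx ⟨σ, Subgroup.mem_zpowers _⟩

theorem isClosed_rootsFix (k : ℕ) : IsClosed (rootsFix k : Set GQ) := by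
  set S : Set Qb := {μ | μ ^ k ! = 1}
  have hS : S.Finite := (Polynomial.finite_setOfPred_isRoot
    (Polynomial.X_pow_sub_C_ne_zero k.factorial_pos (1 : Qb))).subset fun x hx => by
      show Polynomial.IsRoot _ x
      rw [Polynomial.IsRoot, Polynomial.eval_sub, Polynomial.eval_pow, Polynomial.eval_X,
        Polynomial.eval_C, sub_eq_zero]
      exact hx
  have : Finite S := hS.to_subtype
  have : FiniteDimensional ℚ (IntermediateField.adjoin ℚ S) :=
    IntermediateField.finiteDimensional_adjoin fun y _ => Algebra.IsIntegral.isIntegral y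
  exact Subgroup.isClosed_of_isOpen _ (IntermediateField.adjoin ℚ S).fixingSubgroup_isOpen

/-- **A character of finite order is a Dirichlet character.** -/
theorem exists_conductor {ε : GQ →* ℚ_[p]} (hε : Continuous ε) {m : ℕ} (hm : 0 < m)
    (h : ∀ σ, ε σ ^ m = 1) :
    ∃ N : ℕ, 0 < N ∧ ∀ σ : GQ, (∀ μ : Qb, μ ^ N = 1 → σ μ = μ) → ε σ = 1 := by
  have hmono : ∀ {a b : ℕ}, a ≤ b → (rootsFix b : Subgroup GQ) ≤ rootsFix a := fun hab =>
    IntermediateField.fixingSubgroup_antitone (IntermediateField.adjoin.mono _ _ _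
      fun μ (hμ : μ ^ _ = 1) => by
        obtain ⟨c, hc⟩ := Nat.factorial_dvd_factorial hab
        show μ ^ _ = 1
        rw [hc, pow_mul, hμ, one_pow])
  have hempty : (ε.ker : Set GQ)ᶜ ∩ ⋂ k, (rootsFix k : Set GQ) = ∅ :=
    Set.eq_empty_iff_forall_notMem.2 fun σ ⟨hσ, hfix⟩ => hσ (MonoidHom.mem_ker.2 (by
      have hall : FA.GaloisAbelianisation.allCyc σ = FA.GaloisAbelianisation.allCyc 1 := by
        rw [map_one]
        refine funext fun q => Units.ext ?_
        have := FA.GalCoh.fact_prime_natPrimes q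
        refine PadicInt.ext_of_toZModPow.1 fun i => ?_
        show PadicInt.toZModPow i ((FA.JTorsion.cycP (q : ℕ) σ : ℤ_[(q : ℕ)])) = _
        rw [FA.RT.Tate.cycP_eq_natCast (a := 1) fun μ hμ => by
          rw [pow_one]
          refine (IntermediateField.mem_fixingSubgroup_iff _ _).1
            (Set.mem_iInter.1 hfix ((q : ℕ) ^ i)) μ (IntermediateField.subset_adjoin _ _ ?_)
          obtain ⟨c, hc⟩ := Nat.dvd_factorial (pow_pos q.2.pos i) le_rfl
          show μ ^ _ = 1
          rw [hc, pow_mul, hμ, one_pow]]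
        rw [Nat.cast_one]
        exact (map_one _).symm
      have h1 := congrFun (congrFun (eq_of_allCyc_eq (continuous_scalarRep hε)
        (commute_scalarRep ε) hall) ()) ()
      rwa [map_one, Matrix.one_apply_eq] at h1))
  obtain ⟨k, hk⟩ :=
    ((isOpen_ker_of_pow hε hm h).isClosed_compl.isCompact).elim_directed_family_closed
    (fun k => (rootsFix k : Set GQ)) (fun k => isClosed_rootsFix k) hempty
    fun a b => ⟨max a b, hmono (le_max_left a b), hmono (le_max_right a b)⟩
  refine ⟨k !, k.factorial_pos, fun σ hσ => ?_⟩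
  by_contra hne
  exact (Set.eq_empty_iff_forall_notMem.1 hk) σ ⟨fun h0 => hne (MonoidHom.mem_ker.1 h0),
    mem_rootsFix hσ⟩

/-- **All weights zero means finite image.** -/
theorem weights_zero_iff {ρ : GQ →* Matrix d d ℚ_[p]} (hc : Continuous ρ)
    (hcomm : ∀ σ τ : GQ, Commute (ρ σ) (ρ τ)) :
    (∃ P : (Matrix d d Cp)ˣ, ∀ τ, FA.Sen.conj (cpRep (atP ρ)) P τ =
      Matrix.diagonal fun _ => twist p 0 τ) ↔ (Set.range ρ).Finite := by
  refine ⟨fun ⟨P, hP⟩ => ?_, fun h => ?_⟩
  · obtain ⟨H, hH, C, j, hj⟩ := exists_isCycSum hc hcomm ⟨P, _, hP⟩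
    have hj0 : ∀ i, j i = 0 := fun i => by
      by_contra hne
      have e := card_weight_eq_of_isCycSum hH hj (w := fun _ => 0) hP (j i)
      have h0 : (univ.filter fun _ : d => (0 : ℤ) = j i).card = 0 := by simp [Ne.symm hne]
      rw [h0] at e
      exact (card_pos.2 (show (univ.filter fun a => j a = j i).Nonempty from
        ⟨i, by simp⟩)).ne' e.symm
    have h1 : ∀ σ ∈ H, ρ σ = 1 := fun σ hσ => by
      have h2 := hj σ hσ
      simp only [hj0, zpow_zero, Matrix.diagonal_one, mul_one] at h2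
      exact (Units.mul_left_inj C).1 (h2.trans (one_mul _).symm)
    have : Finite (GQ ⧸ H) := H.quotient_finite_of_isOpen hH
    refine (Set.finite_range fun q : GQ ⧸ H => ρ q.out).subset ?_
    rintro _ ⟨σ, rfl⟩
    obtain ⟨u, hu⟩ := QuotientGroup.mk_out_eq_mul H σ
    exact ⟨(σ : GQ ⧸ H), by
      show ρ (σ : GQ ⧸ H).out = ρ σ
      rw [hu, map_mul, h1 _ u.2, mul_one]⟩
  · have hker : IsOpen (ρ.ker : Set GQ) := isOpen_eq_one_of_finite hc h
    exact exists_cp_basis_of_finite_image (isQpRep_atP hc) (isOpen_locPre hker) fun τ hτ => hτ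

variable (p) in
/-- The unipotent representation given by the logarithm of the cyclotomic character. -/
def logRep : GQ →* Matrix (Fin 2) (Fin 2) ℚ_[p] where
  toFun σ := !![1, ((FA.ZpHom.logU p (FA.JTorsion.cycP p σ) : ℤ_[p]) : ℚ_[p]); 0, 1]
  map_one' := by
    have h : FA.ZpHom.logU p (1 : ℤ_[p]ˣ) = 0 := by
      have h1 := FA.ZpHom.logU_mul p 1 1
      rw [one_mul] at h1
      exact left_eq_add.1 h1
    rw [map_one, h, PadicInt.coe_zero]
    exact Matrix.one_fin_two.symm
  map_mul' σ τ := by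
    rw [map_mul, FA.ZpHom.logU_mul, PadicInt.coe_add, Matrix.mul_fin_two]
    simp [add_comm]

theorem continuous_logRep : Continuous (logRep p) := by
  have hL : Continuous fun σ : GQ =>
      ((FA.ZpHom.logU p (FA.JTorsion.cycP p σ) : ℤ_[p]) : ℚ_[p]) :=
    continuous_subtype_val.comp (continuous_toAdd.comp
      (FA.ZpHom.continuous_of_lev (f := FA.ZpHom.logCyc p) FA.ZpHom.lev_logCyc))
  refine continuous_pi fun i => continuous_pi fun k => ?_
  fin_cases i <;> fin_cases k
  all_goals first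
    | exact continuous_const
    | exact hL

theorem commute_logRep (σ τ : GQ) : Commute (logRep p σ) (logRep p τ) := by
  show _ * _ = _ * _
  simp only [logRep, MonoidHom.coe_mk, OneHom.coe_mk, Matrix.mul_fin_two]
  simp [add_comm]

/-- **An abelian representation that is not Hodge–Tate at `p`.** -/
theorem not_isHodgeTate_logRep : ¬ IsHodgeTate (cpRep (atP (logRep p))) := fun h => by
  obtain ⟨H, hH, C, j, hj⟩ := exists_isCycSum continuous_logRep commute_logRep h
  obtain ⟨V, hV⟩ := ProfiniteGrp.exist_openNormalSubgroup_sub_open_nhds_of_one hH H.one_mem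
  have : V.toSubgroup.Normal := V.isNormal'
  have : Finite (GQ ⧸ V.toSubgroup) := V.toSubgroup.quotient_finite_of_isOpen V.isOpen'
  have : V.toSubgroup.FiniteIndex := Subgroup.finiteIndex_of_finite_quotient
  obtain ⟨g, hg, -⟩ := FA.ZpHom.exists_generator (p := p)
  set N := V.toSubgroup.index
  have hpow : ∀ i : ℕ, FA.ZpHom.logU p (FA.JTorsion.cycP p (g ^ i)) =
      i * FA.ZpHom.logU p (FA.JTorsion.cycP p g) := fun i => by
    have h1 := congrArg Multiplicative.toAdd (map_pow (FA.ZpHom.logCyc p) g i)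
    rw [toAdd_pow, nsmul_eq_mul] at h1
    exact h1
  set σ := g ^ N
  set D : Matrix (Fin 2) (Fin 2) ℚ_[p] :=
    Matrix.diagonal fun i => ((FA.JTorsion.cycP p σ : ℤ_[p]) : ℚ_[p]) ^ j i
  have h2 : logRep p σ * (C : Matrix (Fin 2) (Fin 2) ℚ_[p]) =
      (C : Matrix (Fin 2) (Fin 2) ℚ_[p]) * D :=
    hj σ (hV (Subgroup.pow_index_mem V.toSubgroup g))
  have h3 : (logRep p σ - 1) * (logRep p σ - 1) = 0 := by
    ext i k
    fin_cases i <;> fin_cases k <;> simp [logRep, Matrix.mul_apply, Fin.sum_univ_two]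
  have hD : D = 1 := by
    have h4 : logRep p σ = (C : Matrix (Fin 2) (Fin 2) ℚ_[p]) * D * (↑C⁻¹ : Matrix _ _ ℚ_[p]) := by
      rw [← h2, Units.mul_inv_cancel_right]
    have h5 : (D - 1) * (D - 1) = 0 := by
      have h6 := congrArg (fun M => (↑C⁻¹ : Matrix (Fin 2) (Fin 2) ℚ_[p]) * M *
        (C : Matrix (Fin 2) (Fin 2) ℚ_[p])) h3
      simp only [h4, sub_mul, mul_sub, one_mul, mul_one, mul_assoc, Units.inv_mul_cancel_left,
        Units.inv_mul, mul_zero, zero_mul] at h6
      simpa only [sub_mul, mul_sub, one_mul, mul_one] using h6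
    rw [← Matrix.diagonal_one, Matrix.diagonal_sub, Matrix.diagonal_mul_diagonal,
      Matrix.diagonal_eq_zero] at h5
    simp only [D]
    rw [← Matrix.diagonal_one]
    exact congrArg Matrix.diagonal (funext fun i =>
      sub_eq_zero.1 (mul_self_eq_zero.1 (congrFun h5 i)))
  rw [hD, mul_one] at h2
  have h7 := congrFun (congrFun ((Units.mul_left_inj C).1 (h2.trans (one_mul _).symm)) 0) 1
  simp only [logRep, MonoidHom.coe_mk, OneHom.coe_mk, σ, hpow] at h7
  simp only [Matrix.of_apply, Matrix.cons_val_one, Matrix.cons_val_zero, Matrix.one_apply,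
    Fin.reduceEq, if_false, PadicInt.coe_eq_zero] at h7
  rcases mul_eq_zero.1 h7 with h8 | h8
  · exact Subgroup.FiniteIndex.index_ne_zero (Nat.cast_eq_zero.1 h8)
  · exact hg (by rw [h8]; exact dvd_zero _)

end FA.AbelianGeometric
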