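import Fermat.Agent.Root.SummaryGaloisAbelianisation
import Fermat.Agent.GalCoh.Bridge
import Fermat.Agent.TateSen.Log
import Mathlib.GroupTheory.Index

/-!
# The cyclotomic character at `p`

The cyclotomic character of `ℚ` restricts to that of `ℚ_p`, which is surjective.
-/

set_option autoImplicit false
set_option linter.unusedSectionVars false

noncomputable section

open FA.TateSen

namespace FA.AbelianGeometric

variable {p : ℕ} [hp : Fact p.Prime]

local notation "Qb" => AlgebraicClosure ℚ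
local notation "GQ" => AlgebraicClosure ℚ ≃ₐ[ℚ] AlgebraicClosure ℚ
local notation "G" => PadicAlgCl p ≃ₐ[ℚ_[p]] PadicAlgCl p

/-- **The cyclotomic character of `ℚ` at `p` is the local one.** -/
theorem cycP_loc (τ : G) : FA.JTorsion.cycP p (localGaloisToGlobal p τ) = chi p τ := by
  refine Units.ext (PadicInt.ext_of_toZModPow.1 fun n => ?_)
  have : NeZero (p ^ n) := ⟨pow_ne_zero _ hp.out.ne_zero⟩
  set k := ((chi p τ : ℤ_[p]).toZModPow n).val
  rw [FA.RT.Tate.cycP_eq_natCast (a := k) fun μ hμ => (padicEmbedding p).injective ?_,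
    ZMod.natCast_zmod_val]
  show padicEmbedding p _ = padicEmbedding p _
  rw [padicEmbedding_localGaloisToGlobal, map_pow,
    apply_root τ (show padicEmbedding p μ ^ p ^ n = 1 by rw [← map_pow, hμ, map_one])]

/-- **The local cyclotomic character is surjective.** -/
theorem chi_surjective : Function.Surjective (chi p) := fun u => by
  suffices h : (u : ℤ_[p]) ∈ Set.range fun σ : G => (chi p σ : ℤ_[p]) by
    obtain ⟨σ, hσ⟩ := h
    exact ⟨σ, Units.ext hσ⟩
  have hc : IsClosed (Set.range fun σ : G => (chi p σ : ℤ_[p])) :=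
    (isCompact_range (Units.continuous_val.comp continuous_chi)).isClosed
  refine hc.closure_subset ((mem_closure_iff_nhds_basis Metric.nhds_basis_ball).2 fun ε hε => ?_)
  obtain ⟨n, hn⟩ := exists_pow_lt_of_lt_one hε
    (show ((p : ℝ))⁻¹ < 1 from inv_lt_one_of_one_lt₀ (by exact_mod_cast hp.out.one_lt))
  have : NeZero (p ^ (n + 1)) := ⟨pow_ne_zero _ hp.out.ne_zero⟩
  obtain ⟨z, hz⟩ := exists_primitive p (n + 1)
  set a : (ZMod (p ^ (n + 1)))ˣ := Units.map (PadicInt.toZModPow (n + 1)).toMonoidHom u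
  have hk : ¬ p ∣ (a : ZMod (p ^ (n + 1))).val := fun h =>
    hp.out.not_dvd_one ((ZMod.val_coe_unit_coprime a).gcd_eq_one ▸
      Nat.dvd_gcd h (dvd_pow_self p n.succ_ne_zero))
  obtain ⟨σ, hσ⟩ := exists_algEquiv_pow hz hk
  refine ⟨_, ⟨σ, rfl⟩, ?_⟩
  rw [Metric.mem_ball, dist_eq_norm]
  refine lt_of_le_of_lt ?_ hn
  rw [inv_pow, ← zpow_natCast, ← zpow_neg, PadicInt.norm_le_pow_iff_mem_span_pow,
    Ideal.mem_span_singleton]
  refine dvd_trans (pow_dvd_pow _ n.le_succ) (FA.ZpHom.dvd_iff_toZModPow.2 ?_)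
  rw [map_sub, toZModPow_eq_of_root σ hz hσ, ZMod.natCast_zmod_val]
  exact sub_self _

/-- The automorphisms of `Q̄` with the cyclotomic value of an element of `V`. -/
def cycPre (V : Subgroup G) : Subgroup GQ :=
  (V.map (chi p)).comap (FA.JTorsion.cycP p)

theorem exists_of_mem_cycPre {V : Subgroup G} {σ : GQ} (h : σ ∈ cycPre V) :
    ∃ τ ∈ V, chi p τ = FA.JTorsion.cycP p σ :=
  Subgroup.mem_map.1 h

theorem isOpen_cycPre {V : Subgroup G} (hV : IsOpen (V : Set G)) :
    IsOpen (cycPre V : Set GQ) := by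
  have : Finite (G ⧸ V) := V.quotient_finite_of_isOpen hV
  have : V.FiniteIndex := Subgroup.finiteIndex_of_finite_quotient
  have : (V.map (chi p)).FiniteIndex := ⟨fun h => Subgroup.FiniteIndex.index_ne_zero
    (H := V) (Nat.eq_zero_of_zero_dvd (h ▸ Subgroup.index_map_dvd V chi_surjective))⟩
  have hcl : IsClosed (V.map (chi p) : Set ℤ_[p]ˣ) := by
    rw [Subgroup.coe_map]
    exact ((Subgroup.isClosed_of_isOpen V hV).isCompact.image continuous_chi).isClosed
  exact (Subgroup.isOpen_of_isClosed_of_finiteIndex _ hcl).preimage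
    (FA.GaloisAbelianisation.continuous_cycP p)

end FA.AbelianGeometric
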