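import Fermat.Agent.PadicDescent.Descent
import Mathlib.LinearAlgebra.Lagrange
import Mathlib.LinearAlgebra.Matrix.Charpoly.Basic

/-!
# Rational diagonalisation, and the weights seen on an open subgroup

A matrix over `ℚ_p` that is diagonal with integral entries in some basis over `ℂ_p` is so in a
basis over `ℚ_p`. The weights are determined by the restriction to any open subgroup.
-/

set_option autoImplicit false
set_option linter.unusedSectionVars false

noncomputable section

open Finset Polynomial FA.TateSen FA.Sen FA.PadicHodge FA.PadicDescent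

namespace FA.AbelianGeometric

variable {p : ℕ} [hp : Fact p.Prime] {d : Type} [Fintype d] [DecidableEq d]

local notation "Cp" => ℂ_[p]
local notation "G" => PadicAlgCl p ≃ₐ[ℚ_[p]] PadicAlgCl p

theorem aeval_eq_zero_of_conj {A : Matrix d d ℚ_[p]} {Q : (Matrix d d Cp)ˣ} {j : d → ℤ}
    (hA : A.map (algebraMap ℚ_[p] Cp) =
      (Q : Matrix d d Cp) * (Matrix.diagonal fun i => (j i : Cp)) * (↑Q⁻¹ : Matrix d d Cp))
    {g : ℚ_[p][X]} (hg : ∀ i, g.eval (j i : ℚ_[p]) = 0) : aeval A g = 0 := by
  let conjQ : Matrix d d Cp →ₐ[ℚ_[p]] Matrix d d Cp :=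
    { toFun := fun M => (Q : Matrix d d Cp) * M * (↑Q⁻¹ : Matrix d d Cp)
      map_one' := by rw [mul_one, Units.mul_inv]
      map_mul' := fun M N => by
        simp only [mul_assoc, Units.inv_mul_cancel_left]
      map_zero' := by rw [mul_zero, zero_mul]
      map_add' := fun M N => by rw [mul_add, add_mul]
      commutes' := fun r => by
        rw [Algebra.algebraMap_eq_smul_one, mul_smul_comm, mul_one, smul_mul_assoc, Units.mul_inv] }
  refine Matrix.map_injective (algebraMap ℚ_[p] Cp).injective ?_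
  show (Algebra.ofId ℚ_[p] Cp).mapMatrix (aeval A g) = (Algebra.ofId ℚ_[p] Cp).mapMatrix 0
  rw [map_zero, ← aeval_algHom_apply,
    show (Algebra.ofId ℚ_[p] Cp).mapMatrix A =
      conjQ (Matrix.diagonalAlgHom ℚ_[p] fun i => (j i : Cp)) from hA,
    aeval_algHom_apply, aeval_algHom_apply]
  have h0 : aeval (fun i => (j i : Cp)) g = 0 := funext fun i => by
    rw [show aeval (fun i => (j i : Cp)) g i =
      Pi.evalAlgHom ℚ_[p] (fun _ : d => Cp) i (aeval (fun i => (j i : Cp)) g) from rfl,
      ← aeval_algHom_apply, Pi.evalAlgHom_apply,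
      show (j i : Cp) = algebraMap ℚ_[p] Cp (j i : ℚ_[p]) from (map_intCast _ _).symm,
      aeval_algebraMap_apply_eq_algebraMap_eval, hg i, map_zero]
    rfl
  rw [h0, map_zero, map_zero]

/-- **Semisimple with eigenvalues in `ℤ` descends to `ℚ_p`.** -/
theorem exists_diagonal_of_conj {A : Matrix d d ℚ_[p]} {Q : (Matrix d d Cp)ˣ} {j : d → ℤ}
    (hA : A.map (algebraMap ℚ_[p] Cp) =
      (Q : Matrix d d Cp) * (Matrix.diagonal fun i => (j i : Cp)) * (↑Q⁻¹ : Matrix d d Cp)) :
    ∃ (C : (Matrix d d ℚ_[p])ˣ) (w : d → ℤ),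
      A * (C : Matrix d d ℚ_[p]) = (C : Matrix d d ℚ_[p]) *
        Matrix.diagonal fun i => (w i : ℚ_[p]) := by
  classical
  rcases isEmpty_or_nonempty d with hd | hd
  · exact ⟨1, j, Subsingleton.elim _ _⟩
  set f : ℤ → ℚ_[p] := fun v => (v : ℚ_[p])
  set s := univ.image j
  have hinj : Set.InjOn f s := fun a _ b _ h => Int.cast_injective h
  set E : ℤ → Matrix d d ℚ_[p] := fun v => aeval A (Lagrange.basis s f v)
  have hmem : ∀ i, j i ∈ s := fun i => mem_image_of_mem j (mem_univ i)
  have hEv : ∀ v ∈ s, A * E v = (v : ℚ_[p]) • E v := fun v hv => by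
    have h1 := aeval_eq_zero_of_conj hA (g := (X - C (f v)) * Lagrange.basis s f v) fun i => by
      rw [eval_mul, eval_sub, eval_X, eval_C]
      rcases eq_or_ne (j i) v with h | h
      · rw [← h, sub_self, zero_mul]
      · rw [show (j i : ℚ_[p]) = f (j i) from rfl,
          Lagrange.eval_basis_of_ne (Ne.symm h) (hmem i), mul_zero]
    rw [map_mul, map_sub, aeval_X, aeval_C, Algebra.algebraMap_eq_smul_one, sub_mul,
      smul_mul_assoc, one_mul, sub_eq_zero] at h1
    exact h1
  have hsum : ∑ v ∈ s, E v = 1 := by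
    rw [← map_sum, Lagrange.sum_basis hinj (univ_nonempty.image j), map_one]
  have hspan : Submodule.span ℚ_[p]
      (Set.range fun a : s × d => (E (a.1 : ℤ)).col a.2) = ⊤ := by
    refine eq_top_iff.2 fun y _ => ?_
    rw [← Matrix.one_mulVec y, ← hsum, Matrix.sum_mulVec]
    refine Submodule.sum_mem _ fun v hv => ?_
    have h1 : Submodule.span ℚ_[p] (Set.range (E v).col) ≤
        Submodule.span ℚ_[p] (Set.range fun a : s × d => (E (a.1 : ℤ)).col a.2) :=
      Submodule.span_mono (by rintro _ ⟨k, rfl⟩; exact ⟨(⟨v, hv⟩, k), rfl⟩)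
    exact h1 (by rw [← Matrix.range_mulVecLin]; exact ⟨y, rfl⟩)
  obtain ⟨a, C, hC⟩ := exists_selection _ hspan
  refine ⟨C, fun k => ((a k).1 : ℤ), Matrix.ext fun i k => ?_⟩
  rw [Matrix.mul_diagonal, hC, Matrix.mul_apply]
  have h1 := congrFun (congrFun (hEv _ (a k).1.2) i) (a k).2
  rw [Matrix.mul_apply, Matrix.smul_apply, smul_eq_mul] at h1
  simp only [hC, Matrix.col_apply]
  rw [h1, mul_comm]

/-- **The weights are determined on any open subgroup.** -/
theorem card_weight_eq_of_open {U : G → Matrix d d Cp} {S : Subgroup G}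
    (hS : IsOpen (S : Set G)) {P Q : (Matrix d d Cp)ˣ} {j k : d → ℤ}
    (hP : ∀ σ ∈ S, FA.Sen.conj U P σ = Matrix.diagonal fun i => twist p (j i) σ)
    (hQ : ∀ σ ∈ S, FA.Sen.conj U Q σ = Matrix.diagonal fun i => twist p (k i) σ) (v : ℤ) :
    (univ.filter fun i => j i = v).card = (univ.filter fun i => k i = v).card := by
  set M : (Matrix d d Cp)ˣ := P⁻¹ * Q
  have hent : ∀ i l, j i ≠ k l → (M : Matrix d d Cp) i l = 0 := fun i l hne => by
    refine eq_zero_of_invariant_open (sub_ne_zero.2 hne) S hS fun σ hσ => ?_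
    have h1 : FA.Sen.conj (FA.Sen.conj U P) M σ = Matrix.diagonal fun i => twist p (k i) σ := by
      rw [conj_conj, mul_inv_cancel_left]; exact hQ σ hσ
    have h2 := congrFun (congrFun (FA.Sen.conj_eq_iff.1 h1) i) l
    rw [hP σ hσ, Matrix.diagonal_mul, Matrix.mul_diagonal, galM_apply] at h2
    rw [sub_eq_add_neg, twist_add, mul_right_comm, h2, mul_assoc, mul_comm (twist p (k l) σ),
      twist_inv_mul, mul_one]
  have hc : (M : Matrix d d Cp) * (Matrix.diagonal fun i => (k i : Cp)) * (↑M⁻¹ : Matrix d d Cp) =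
      Matrix.diagonal fun i => (j i : Cp) := by
    rw [Units.mul_inv_eq_iff_eq_mul]
    refine Matrix.ext fun i l => ?_
    rw [Matrix.mul_diagonal, Matrix.diagonal_mul]
    rcases eq_or_ne (j i) (k l) with h | h
    · rw [h, mul_comm]
    · rw [hent i l h, zero_mul, mul_zero]
  have h3 := congrArg Matrix.charpoly hc
  rw [Matrix.coe_units_inv, Matrix.charpoly_units_conj, Matrix.charpoly_diagonal,
    Matrix.charpoly_diagonal] at h3
  have h4 : univ.val.map (fun i => (k i : Cp)) = univ.val.map (fun i => (j i : Cp)) := by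
    rw [← roots_multiset_prod_X_sub_C (univ.val.map fun i => (k i : Cp)),
      ← roots_multiset_prod_X_sub_C (univ.val.map fun i => (j i : Cp)), Multiset.map_map,
      Multiset.map_map]
    exact congrArg Polynomial.roots h3
  classical
  have h5 := congrArg (Multiset.count ((v : ℤ) : Cp)) h4
  simp only [Multiset.count_map, Int.cast_inj] at h5
  simp only [card_def, filter_val, eq_comm (b := v)]
  exact h5.symm

end FA.AbelianGeometric
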