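import Fermat.Agent.AbelianGeometric.CyclotomicLocal
import Fermat.Agent.Sen.Matrix

/-!
# The part at `p` of an abelian representation of the Galois group of `ℚ`

A representation with commuting image factors through the product of the groups `ℤ_ℓ^×`. Near the
identity a matrix over `ℚ_p` has no finite order and no root of every `ℓ`-power order, so on an
open subgroup only the factor at `p` survives.
-/

set_option autoImplicit false
set_option linter.unusedSectionVars false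

noncomputable section

open Filter FA.TateSen FA.Sen
open scoped Topology Matrix.Norms.Elementwise

namespace FA.AbelianGeometric

variable {p : ℕ} [hp : Fact p.Prime] {d : Type} [Fintype d] [DecidableEq d]

local notation "GQ" => AlgebraicClosure ℚ ≃ₐ[ℚ] AlgebraicClosure ℚ
local notation "Cp" => ℂ_[p]
local notation "Md" => Matrix d d ℂ_[p]
local notation "Mq" => Matrix d d ℚ_[p]

/-- The product of the groups `ℤ_ℓ^×`. -/
abbrev UnitsProd : Type := ∀ q : Nat.Primes, ℤ_[(q : ℕ)]ˣ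

local notation "Λ" => UnitsProd

theorem norm_pow_sub_linear_le {w : Md} (hw : ‖w - 1‖ ≤ 1) (m : ℕ) :
    ‖w ^ m - 1 - (m : ℕ) • (w - 1)‖ ≤ ‖w - 1‖ * ‖w - 1‖ := by
  induction m with
  | zero => simp only [pow_zero, sub_self, zero_smul, norm_zero]; positivity
  | succ m ih =>
    have e : w ^ (m + 1) - 1 - (m + 1) • (w - 1) =
        (w ^ m - 1 - m • (w - 1)) * w + m • ((w - 1) * (w - 1)) := by
      simp only [sub_mul, smul_mul_assoc, mul_sub, one_mul, mul_one, ← pow_succ, add_smul,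
        one_smul, smul_sub]
      abel
    rw [e]
    refine (IsUltrametricDist.norm_add_le_max _ _).trans (max_le ?_ ?_)
    · exact (norm_mul_le _ _).trans
        ((mul_le_of_le_one_right (norm_nonneg _) (norm_le_one_of_sub hw)).trans ih)
    · rw [← Nat.cast_smul_eq_nsmul ℚ_[p]]
      refine (norm_smul_le _ _).trans ((mul_le_of_le_one_left (norm_nonneg _) ?_).trans
        (norm_mul_le _ _))
      exact IsUltrametricDist.norm_natCast_le_one _ _

theorem inv_cube_lt_one : ((p : ℝ) ^ 3)⁻¹ < 1 :=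
  inv_lt_one_of_one_lt₀ (one_lt_pow₀ (by exact_mod_cast hp.out.one_lt) (by norm_num))

theorem norm_pow_sub_one_le_self {w : Md} (hw : ‖w - 1‖ ≤ 1) (m : ℕ) :
    ‖w ^ m - 1‖ ≤ ‖w - 1‖ := by
  rw [← sub_add_cancel (w ^ m - 1) (m • (w - 1))]
  refine (IsUltrametricDist.norm_add_le_max _ _).trans (max_le ?_ ?_)
  · exact (norm_pow_sub_linear_le hw m).trans (mul_le_of_le_one_left (norm_nonneg _) hw)
  · exact norm_nsmul_le_self m _

/-- **Near the identity there is no torsion.** -/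
theorem eq_one_of_pow_eq_one {w : Md} (hw : ‖w - 1‖ ≤ ((p : ℝ) ^ 3)⁻¹) {m : ℕ} (hm : 0 < m)
    (h : w ^ m = 1) : w = 1 := by
  induction m using Nat.recOnMul generalizing w with
  | zero => exact absurd hm (lt_irrefl 0)
  | one => rwa [pow_one] at h
  | prime q hq =>
    by_contra hne
    have hy : 0 < ‖w - 1‖ := norm_pos_iff.2 (sub_ne_zero.2 hne)
    have h1 := norm_pow_sub_linear_le (hw.trans inv_cube_lt_one.le) q
    rw [h, sub_self, zero_sub, norm_neg, ← Nat.cast_smul_eq_nsmul ℚ_[p], norm_smul] at h1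
    have h2 : ((p : ℝ))⁻¹ ≤ ‖(q : ℚ_[p])‖ := by
      rcases eq_or_ne q p with rfl | hqp
      · exact Padic.norm_p.ge
      · rw [(Padic.norm_natCast_eq_one_iff).2 ((Nat.coprime_primes hp.out hq).2 hqp.symm)]
        exact inv_le_one_of_one_le₀ (by exact_mod_cast hp.out.one_le)
    have h3 : ((p : ℝ))⁻¹ ≤ ((p : ℝ) ^ 3)⁻¹ :=
      (h2.trans (le_of_mul_le_mul_right h1 hy)).trans hw
    exact absurd h3 (not_le.2 (inv_strictAnti₀ (by exact_mod_cast hp.out.pos)
      (lt_self_pow₀ (by exact_mod_cast hp.out.one_lt) (by norm_num))))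
  | mul a b iha ihb =>
    obtain ⟨ha, hb⟩ := Nat.pos_iff_ne_zero.1 hm |> mul_ne_zero_iff.1
    have hsmall : ‖w ^ a - 1‖ ≤ ((p : ℝ) ^ 3)⁻¹ :=
      (norm_pow_sub_one_le_self (hw.trans inv_cube_lt_one.le) a).trans hw
    exact iha hw (Nat.pos_of_ne_zero ha)
      (ihb hsmall (Nat.pos_of_ne_zero hb) (by rw [← pow_mul, h]))

theorem norm_pow_sub_one_eq {w : Md} (hw : ‖w - 1‖ < 1) {m : ℕ} (hm : p.Coprime m) :
    ‖w ^ m - 1‖ = ‖w - 1‖ := by
  rcases eq_or_ne w 1 with rfl | hne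
  · rw [one_pow]
  have hy : 0 < ‖w - 1‖ := norm_pos_iff.2 (sub_ne_zero.2 hne)
  have h1 : ‖m • (w - 1)‖ = ‖w - 1‖ := by
    rw [← Nat.cast_smul_eq_nsmul ℚ_[p], norm_smul, Padic.norm_natCast_eq_one_iff.2 hm, one_mul]
  have h2 : ‖w ^ m - 1 - m • (w - 1)‖ < ‖m • (w - 1)‖ := by
    rw [h1]
    exact (norm_pow_sub_linear_le hw.le m).trans_lt (mul_lt_of_lt_one_left hy hw)
  conv_lhs => rw [← sub_add_cancel (w ^ m - 1) (m • (w - 1))]
  rw [IsUltrametricDist.norm_add_eq_max_of_norm_ne_norm h2.ne, max_eq_right h2.le, h1]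

/-- The extension of scalars to `ℂ_p`. -/
def cpM : Mq →+* Md := (algebraMap ℚ_[p] Cp).mapMatrix

theorem cpM_injective : Function.Injective (cpM : Mq → Md) :=
  Matrix.map_injective (algebraMap ℚ_[p] Cp).injective

theorem continuous_cpM : Continuous (cpM : Mq → Md) :=
  continuous_id.matrix_map (continuous_algebraMap ℚ_[p] Cp)

theorem pow_tendsto {q : Nat.Primes} (u : ℤ_[(q : ℕ)]ˣ) :
    Tendsto (fun k : ℕ => (u ^ ((q : ℕ) - 1)) ^ (q : ℕ) ^ k) atTop (𝓝 1) := by
  have := FA.GalCoh.fact_prime_natPrimes q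
  rw [Units.isOpenEmbedding_val.isInducing.tendsto_nhds_iff]
  simp only [Function.comp_def, Units.val_one, Units.val_pow_eq_pow_val]
  have h0 : ((q : ℕ) : ℤ_[(q : ℕ)]) ∣ (u : ℤ_[(q : ℕ)]) ^ ((q : ℕ) - 1) - 1 := by
    rw [← Ideal.mem_span_singleton, ← PadicInt.maximalIdeal_eq_span_p, ← PadicInt.ker_toZMod,
      RingHom.mem_ker, map_sub, map_pow, map_one, sub_eq_zero]
    exact ZMod.pow_card_sub_one_eq_one (IsUnit.ne_zero (u.isUnit.map PadicInt.toZMod))
  refine tendsto_iff_norm_sub_tendsto_zero.2 (squeeze_zero (fun _ => norm_nonneg _) (fun k => ?_)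
    (tendsto_pow_atTop_nhds_zero_of_lt_one (inv_nonneg.2 (Nat.cast_nonneg (q : ℕ)))
      (inv_lt_one_of_one_lt₀ (by exact_mod_cast q.2.one_lt))))
  refine le_trans ?_ (pow_le_pow_of_le_one (inv_nonneg.2 (Nat.cast_nonneg _))
    (inv_le_one_of_one_le₀ (by exact_mod_cast q.2.one_le)) k.le_succ)
  rw [inv_pow, ← zpow_natCast, ← zpow_neg, PadicInt.norm_le_pow_iff_mem_span_pow,
    Ideal.mem_span_singleton]
  have h1 := dvd_sub_pow_of_dvd_sub h0 k
  rwa [one_pow] at h1

variable {ρ : GQ →* Matrix d d ℚ_[p]}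

theorem eq_of_allCyc_eq (hc : Continuous ρ) (hcomm : ∀ σ τ : GQ, Commute (ρ σ) (ρ τ)) {σ τ : GQ}
    (h : FA.GaloisAbelianisation.allCyc σ = FA.GaloisAbelianisation.allCyc τ) : ρ σ = ρ τ := by
  have hle : (commutator GQ).topologicalClosure ≤ ρ.ker := by
    refine Subgroup.topologicalClosure_minimal _ ?_ (isClosed_singleton.preimage hc)
    rw [commutator_def, Subgroup.commutator_le]
    intro a _ b _
    rw [MonoidHom.mem_ker, commutatorElement_def, map_mul, map_mul, map_mul, (hcomm a b).eq,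
      ← map_mul, ← map_mul, ← map_mul, show b * a * a⁻¹ * b⁻¹ = 1 by group, map_one]
  have h1 : σ⁻¹ * τ ∈ FA.GaloisAbelianisation.allCyc.ker := by
    rw [MonoidHom.mem_ker, map_mul, map_inv, h, inv_mul_cancel]
  rw [FA.GaloisAbelianisation.ker_allCyc] at h1
  have h2 : ρ (σ⁻¹ * τ) = 1 := hle h1
  calc ρ σ = ρ σ * ρ (σ⁻¹ * τ) := by rw [h2, mul_one]
    _ = ρ τ := by rw [← map_mul, mul_inv_cancel_left]

/-- A chosen automorphism with given cyclotomic values. -/
def liftCyc (x : Λ) : GQ := (FA.GaloisAbelianisation.allCyc_surjective x).choose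

theorem allCyc_liftCyc (x : Λ) : FA.GaloisAbelianisation.allCyc (liftCyc x) = x :=
  (FA.GaloisAbelianisation.allCyc_surjective x).choose_spec

/-- The representation of the product of the groups `ℤ_ℓ^×`. -/
def abMap (hc : Continuous ρ) (hcomm : ∀ σ τ : GQ, Commute (ρ σ) (ρ τ)) : Λ →* Mq where
  toFun x := ρ (liftCyc x)
  map_one' := by
    rw [eq_of_allCyc_eq hc hcomm (τ := 1) (by rw [allCyc_liftCyc, map_one]), map_one]
  map_mul' x y := by
    rw [← map_mul]
    exact eq_of_allCyc_eq hc hcomm (by rw [map_mul, allCyc_liftCyc, allCyc_liftCyc, allCyc_liftCyc])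

theorem abMap_allCyc (hc : Continuous ρ) (hcomm : ∀ σ τ : GQ, Commute (ρ σ) (ρ τ)) (σ : GQ) :
    abMap hc hcomm (FA.GaloisAbelianisation.allCyc σ) = ρ σ :=
  eq_of_allCyc_eq hc hcomm (allCyc_liftCyc _)

theorem continuous_abMap (hc : Continuous ρ) (hcomm : ∀ σ τ : GQ, Commute (ρ σ) (ρ τ)) :
    Continuous (abMap hc hcomm) := by
  refine continuous_iff_isClosed.2 fun S hS => ?_
  have e : abMap hc hcomm ⁻¹' S = FA.GaloisAbelianisation.allCyc '' (ρ ⁻¹' S) := by
    ext x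
    refine ⟨fun hx => ⟨liftCyc x, hx, allCyc_liftCyc x⟩, ?_⟩
    rintro ⟨σ, hσ, rfl⟩
    rw [Set.mem_preimage, abMap_allCyc hc hcomm σ]
    exact hσ
  rw [e]
  exact ((hS.preimage hc).isCompact.image FA.GaloisAbelianisation.continuous_allCyc).isClosed

variable (p) in
/-- The prime `p`. -/
def pPrime : Nat.Primes := ⟨p, hp.out⟩

variable (p) in
/-- The component at `p`. -/
def single : GQ →* Λ :=
  (MonoidHom.mulSingle (fun q : Nat.Primes => ℤ_[(q : ℕ)]ˣ) (pPrime p)).comp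
    (FA.JTorsion.cycP p)

/-- **The part at `p`**: it depends only on the cyclotomic character at `p`. -/
def pPart (hc : Continuous ρ) (hcomm : ∀ σ τ : GQ, Commute (ρ σ) (ρ τ)) : GQ →* Mq :=
  (abMap hc hcomm).comp (single p)

theorem continuous_pPart (hc : Continuous ρ) (hcomm : ∀ σ τ : GQ, Commute (ρ σ) (ρ τ)) :
    Continuous (pPart hc hcomm) :=
  (continuous_abMap hc hcomm).comp
    ((continuous_mulSingle (pPrime p)).comp (FA.GaloisAbelianisation.continuous_cycP p))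

theorem pPart_congr (hc : Continuous ρ) (hcomm : ∀ σ τ : GQ, Commute (ρ σ) (ρ τ)) {σ τ : GQ}
    (h : FA.JTorsion.cycP p σ = FA.JTorsion.cycP p τ) : pPart hc hcomm σ = pPart hc hcomm τ := by
  exact congrArg (fun v => abMap hc hcomm
    (MonoidHom.mulSingle (fun q : Nat.Primes => ℤ_[(q : ℕ)]ˣ) (pPrime p) v)) h

theorem single_apply_self (σ : GQ) : single p σ (pPrime p) = FA.JTorsion.cycP p σ :=
  Pi.mulSingle_eq_same (M := fun q : Nat.Primes => ℤ_[(q : ℕ)]ˣ) _ _

theorem abMap_single_pow_eq_one (hc : Continuous ρ) (hcomm : ∀ σ τ : GQ, Commute (ρ σ) (ρ τ))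
    {N : ℕ} (hN : ∀ σ, ‖cpM (ρ σ ^ N) - 1‖ ≤ ((p : ℝ) ^ 3)⁻¹) {q : Nat.Primes}
    (hq : (q : ℕ) ≠ p) (u : ℤ_[(q : ℕ)]ˣ) :
    abMap hc hcomm (Pi.mulSingle q u) ^ N = 1 := by
  set w : Md := cpM (abMap hc hcomm (Pi.mulSingle q u) ^ N)
  have hw : ‖w - 1‖ ≤ ((p : ℝ) ^ 3)⁻¹ := hN _
  set w' := w ^ ((q : ℕ) - 1)
  have hw' : ‖w' - 1‖ ≤ ((p : ℝ) ^ 3)⁻¹ :=
    (norm_pow_sub_one_le_self (hw.trans inv_cube_lt_one.le) _).trans hw
  have ht : Tendsto (fun k : ℕ => ‖w' ^ (q : ℕ) ^ k - 1‖) atTop (𝓝 0) := by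
    set F : ℤ_[(q : ℕ)]ˣ → ℝ := fun v => ‖cpM (abMap hc hcomm (Pi.mulSingle q v) ^ N) - 1‖
      with hF
    have hFc : Continuous F := ((continuous_cpM.comp (((continuous_abMap hc hcomm).comp
      (continuous_mulSingle q)).pow N)).sub continuous_const).norm
    have h1 := (hFc.tendsto 1).comp (pow_tendsto u)
    rw [show F 1 = 0 by simp only [hF, Pi.mulSingle_one, map_one, one_pow, sub_self, norm_zero]]
      at h1
    refine h1.congr fun k => ?_
    simp only [Function.comp_def, hF]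
    simp only [w', w, Pi.mulSingle_pow, map_pow, ← pow_mul]
    congr 3
    ring
  have h2 : w' = 1 := by
    refine sub_eq_zero.1 (norm_eq_zero.1 (tendsto_nhds_unique tendsto_const_nhds (ht.congr
      fun k => norm_pow_sub_one_eq (hw'.trans_lt inv_cube_lt_one) (Nat.Coprime.pow_right k
        ((Nat.coprime_primes hp.out q.2).2 (Ne.symm hq))))))
  have h3 : w = 1 := eq_one_of_pow_eq_one hw (Nat.sub_pos_of_lt q.2.one_lt) h2
  exact cpM_injective (h3.trans (map_one _).symm)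

theorem abMap_pow_eq_one (hc : Continuous ρ) (hcomm : ∀ σ τ : GQ, Commute (ρ σ) (ρ τ))
    {N : ℕ} (hN : ∀ σ, ‖cpM (ρ σ ^ N) - 1‖ ≤ ((p : ℝ) ^ 3)⁻¹) (x : Λ) (hx : x (pPrime p) = 1) :
    abMap hc hcomm x ^ N = 1 := by
  classical
  set f : Λ →* Mq :=
    { toFun := fun y => abMap hc hcomm y ^ N
      map_one' := by rw [map_one, one_pow]
      map_mul' := fun a b => by
        rw [map_mul, (Commute.map (Commute.all a b) (abMap hc hcomm)).mul_pow] }
  set y : Finset Nat.Primes → Λ := fun s => ∏ q ∈ s, Pi.mulSingle q (x q)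
  have hy : ∀ s, f (y s) = 1 := fun s => by
    induction s using Finset.induction with
    | empty => simp only [y, Finset.prod_empty, map_one]
    | insert a s ha ih =>
      simp only [y, Finset.prod_insert ha, map_mul] at ih ⊢
      rw [ih, mul_one]
      by_cases hap : (a : ℕ) = p
      · obtain rfl : a = pPrime p := Subtype.ext hap
        rw [hx, Pi.mulSingle_one, map_one]
      · exact abMap_single_pow_eq_one hc hcomm hN hap (x a)
  have ht : Tendsto y atTop (𝓝 x) := tendsto_pi_nhds.2 fun q =>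
    tendsto_const_nhds.congr' ((eventually_ge_atTop {q}).mono fun s hs => by
      simp only [y, Finset.prod_apply]
      rw [Finset.prod_eq_single_of_mem q (hs (Finset.mem_singleton_self q))
        (fun b _ hb => Pi.mulSingle_eq_of_ne hb.symm _), Pi.mulSingle_eq_same])
  exact tendsto_nhds_unique (((continuous_abMap hc hcomm).pow N).continuousAt.tendsto.comp ht)
    (tendsto_const_nhds.congr fun s => (hy s).symm)

/-- **On an open subgroup an abelian representation is its part at `p`.** -/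
theorem exists_open_eq_pPart (hc : Continuous ρ) (hcomm : ∀ σ τ : GQ, Commute (ρ σ) (ρ τ)) :
    ∃ H : Subgroup GQ, IsOpen (H : Set GQ) ∧ ∀ σ ∈ H, ρ σ = pPart hc hcomm σ := by
  set κ := pPart hc hcomm
  have hopen : ∀ f : GQ →* Mq, Continuous f →
      IsOpen {σ : GQ | ‖cpM (f σ) - 1‖ < ((p : ℝ) ^ 3)⁻¹} := fun f hf =>
    isOpen_lt ((continuous_cpM.comp hf).sub continuous_const).norm continuous_const
  have h1 : ∀ f : GQ →* Mq, (1 : GQ) ∈ {σ : GQ | ‖cpM (f σ) - 1‖ < ((p : ℝ) ^ 3)⁻¹} := fun f => by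
    show ‖cpM (f 1) - 1‖ < _
    rw [map_one, map_one, sub_self, norm_zero]
    exact inv_pos.2 (pow_pos (Nat.cast_pos.2 hp.out.pos) 3)
  obtain ⟨V, hV⟩ := ProfiniteGrp.exist_openNormalSubgroup_sub_open_nhds_of_one
    ((hopen ρ hc).inter (hopen κ (continuous_pPart hc hcomm))) ⟨h1 ρ, h1 κ⟩
  have : V.toSubgroup.Normal := V.isNormal'
  have : Finite (GQ ⧸ V.toSubgroup) := V.toSubgroup.quotient_finite_of_isOpen V.isOpen'
  have : V.toSubgroup.FiniteIndex := Subgroup.finiteIndex_of_finite_quotient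
  set N := V.toSubgroup.index
  have hN : ∀ σ, ‖cpM (ρ σ ^ N) - 1‖ ≤ ((p : ℝ) ^ 3)⁻¹ := fun σ => by
    rw [← map_pow ρ]
    exact (hV (Subgroup.pow_index_mem V.toSubgroup σ)).1.le
  refine ⟨V.toSubgroup, V.isOpen', fun σ hσ => ?_⟩
  have hq : cpM (ρ σ * κ σ⁻¹) = 1 := by
    refine eq_one_of_pow_eq_one (m := N) ?_ (Nat.pos_of_ne_zero Subgroup.FiniteIndex.index_ne_zero)
      ?_
    · rw [map_mul, show cpM (ρ σ) * cpM (κ σ⁻¹) - 1 =
        (cpM (ρ σ) - 1) * cpM (κ σ⁻¹) + (cpM (κ σ⁻¹) - 1) by rw [sub_mul, one_mul]; abel]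
      have h2 := (hV (inv_mem hσ)).2
      refine (IsUltrametricDist.norm_add_le_max _ _).trans (max_le ?_ h2.le)
      exact (norm_mul_le _ _).trans ((mul_le_of_le_one_right (norm_nonneg _)
        (norm_le_one_of_sub (h2.le.trans inv_cube_lt_one.le))).trans (hV hσ).1.le)
    · rw [← map_pow]
      refine (congrArg cpM ?_).trans (map_one cpM)
      rw [← abMap_allCyc hc hcomm σ]
      simp only [κ, pPart, MonoidHom.comp_apply]
      rw [← map_mul]
      refine abMap_pow_eq_one hc hcomm hN _ ?_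
      rw [Pi.mul_apply, single_apply_self, map_inv]
      exact mul_inv_cancel _
  have h4 : ρ σ * κ σ⁻¹ = 1 := cpM_injective (hq.trans (map_one _).symm)
  calc ρ σ = ρ σ * κ σ⁻¹ * κ σ := by rw [mul_assoc, ← map_mul κ, inv_mul_cancel, map_one, mul_one]
    _ = κ σ := by rw [h4, one_mul]

end FA.AbelianGeometric
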