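import Fermat.Agent.AbelianGeometric.Factor
import Fermat.Agent.AbelianGeometric.Diagonal
import Fermat.Agent.PadicHodge.Examples

/-!
# Abelian representations of the Galois group of `ℚ` that are Hodge–Tate at `p`

They are sums of powers of the cyclotomic character on an open subgroup.
-/

set_option autoImplicit false
set_option linter.unusedSectionVars false

noncomputable section

open Finset FA.TateSen FA.BDR FA.Sen FA.PadicHodge FA.PadicDescent NormedSpace
open scoped Matrix.Norms.Elementwise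

namespace FA.AbelianGeometric

variable {p : ℕ} [hp : Fact p.Prime] {d : Type} [Fintype d] [DecidableEq d]

local notation "GQ" => AlgebraicClosure ℚ ≃ₐ[ℚ] AlgebraicClosure ℚ
local notation "G" => PadicAlgCl p ≃ₐ[ℚ_[p]] PadicAlgCl p
local notation "Cp" => ℂ_[p]
local notation "Md" => Matrix d d ℂ_[p]

/-- The restriction to the decomposition group at `p`. -/
def atP (ρ : GQ →* Matrix d d ℚ_[p]) (τ : G) : Matrix d d ℚ_[p] :=
  ρ (localGaloisToGlobal p τ)

theorem isQpRep_atP {ρ : GQ →* Matrix d d ℚ_[p]} (hc : Continuous ρ) :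
    IsQpRep p d (atP ρ) where
  cont := hc.comp FA.GalCoh.continuous_loc
  map_one := by rw [atP, map_one, map_one]
  map_mul σ τ := by rw [atP, atP, atP, map_mul, map_mul]

variable (p) in
/-- The preimage of an open subgroup in the decomposition group at `p`. -/
def locPre (H : Subgroup GQ) : Subgroup G :=
  H.comap (localGaloisToGlobal p)

theorem isOpen_locPre {H : Subgroup GQ} (hH : IsOpen (H : Set GQ)) :
    IsOpen (locPre p H : Set G) :=
  hH.preimage FA.GalCoh.continuous_loc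

/-- `ρ` is a sum of powers of the cyclotomic character on an open subgroup, in the basis `C`. -/
def IsCycSum (ρ : GQ →* Matrix d d ℚ_[p]) (H : Subgroup GQ) (C : (Matrix d d ℚ_[p])ˣ)
    (j : d → ℤ) : Prop :=
  ∀ σ ∈ H, ρ σ * (C : Matrix d d ℚ_[p]) = (C : Matrix d d ℚ_[p]) *
    Matrix.diagonal fun i => ((FA.JTorsion.cycP p σ : ℤ_[p]) : ℚ_[p]) ^ j i

theorem atP_mul_of_isCycSum {ρ : GQ →* Matrix d d ℚ_[p]} {H : Subgroup GQ}
    {C : (Matrix d d ℚ_[p])ˣ} {j : d → ℤ} (h : IsCycSum ρ H C j) {τ : G}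
    (hτ : τ ∈ locPre p H) :
    atP ρ τ * (C : Matrix d d ℚ_[p]) = (C : Matrix d d ℚ_[p]) * tateRep j τ := by
  rw [atP, h _ hτ, tateRep, cycP_loc τ]

/-- The basis `C` over `ℂ_p`. -/
def cpUnit (C : (Matrix d d ℚ_[p])ˣ) : Mdˣ :=
  Units.map ((algebraMap ℚ_[p] Cp).mapMatrix (m := d)).toMonoidHom C

theorem conj_of_isCycSum {ρ : GQ →* Matrix d d ℚ_[p]} {H : Subgroup GQ}
    {C : (Matrix d d ℚ_[p])ˣ} {j : d → ℤ} (h : IsCycSum ρ H C j) :
    ∀ τ ∈ locPre p H, FA.Sen.conj (cpRep (atP ρ)) (cpUnit C) τ =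
      Matrix.diagonal fun i => twist p (j i) τ := fun τ hτ => by
  rw [FA.Sen.conj_eq_iff]
  show cpRep (atP ρ) τ * galM τ ((C : Matrix d d ℚ_[p]).map (algebraMap ℚ_[p] Cp)) =
    (C : Matrix d d ℚ_[p]).map (algebraMap ℚ_[p] Cp) * twistRep j τ
  rw [← congrFun (cpRep_tateRep j) τ, galM, RingHom.mapMatrix_apply, map_gal_scalar, cpRep, cpRep,
    ← Matrix.map_mul, ← Matrix.map_mul, atP_mul_of_isCycSum h hτ]

/-- A sum of powers of the cyclotomic character on an open subgroup is de Rham at `p`. -/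
theorem isDeRham_of_isCycSum {ρ : GQ →* Matrix d d ℚ_[p]} (hc : Continuous ρ) {H : Subgroup GQ}
    (hH : IsOpen (H : Set GQ)) {C : (Matrix d d ℚ_[p])ˣ} {j : d → ℤ} (h : IsCycSum ρ H C j) :
    IsDeRham (atP ρ) := by
  obtain ⟨X, hX⟩ := isDeRham_tateRep (p := p) j
  refine isDeRham_of_open (isQpRep_atP hc) (isOpen_locPre hH)
    (X := Units.map ((qpB p).mapMatrix (m := d)).toMonoidHom C * X) fun τ hτ => ?_
  show (atP ρ τ).map (qpB p) *
    actM τ ((C : Matrix d d ℚ_[p]).map (qpB p) * (X : Matrix d d (BField p))) =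
      (C : Matrix d d ℚ_[p]).map (qpB p) * (X : Matrix d d (BField p))
  rw [map_mul, show actM τ ((C : Matrix d d ℚ_[p]).map (qpB p)) =
    (C : Matrix d d ℚ_[p]).map (qpB p) from map_qpB_smul τ _, ← mul_assoc, ← Matrix.map_mul,
    atP_mul_of_isCycSum h hτ, Matrix.map_mul, mul_assoc, actM_apply, hX τ]

/-- The Sen operator of the part at `p` has entries in `ℚ_p`. -/
theorem exists_rational_exp {ρ : GQ →* Matrix d d ℚ_[p]} (hc : Continuous ρ)
    (hcomm : ∀ σ τ : GQ, Commute (ρ σ) (ρ τ)) :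
    ∃ (A : Matrix d d ℚ_[p]) (n : ℕ),
      IsSenOperator p d (cpRep (atP (pPart hc hcomm))) (A.map (algebraMap ℚ_[p] Cp)) ∧
      ∀ τ ∈ levelGal p n,
        cpRep (atP (pPart hc hcomm)) τ = exp (logChi p τ • A.map (algebraMap ℚ_[p] Cp)) := by
  set κ := pPart hc hcomm
  set U := cpRep (atP κ)
  have hU : IsRep p d U := isRep_cpRep (isQpRep_atP (continuous_pPart hc hcomm))
  have hker : ∀ g ∈ (cycInf p).fixingSubgroup, U g = 1 := fun g hg => by
    simp only [U, cpRep, atP]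
    rw [pPart_congr hc hcomm (τ := 1) (by rw [cycP_loc, (mem_fix_cycInf_iff g).1 hg, map_one]),
      map_one, Matrix.map_one _ (map_zero _) (map_one _)]
  obtain ⟨k, hk⟩ := exists_levelGal_subset (W := {τ : G | ‖U τ - 1‖ < ((p : ℝ) ^ 3)⁻¹})
    (isOpen_lt (hU.cont.sub continuous_const).norm continuous_const) (fun g hg => by
      show ‖U g - 1‖ < ((p : ℝ) ^ 3)⁻¹
      rw [hker g hg, sub_self, norm_zero]
      exact inv_pos.2 (pow_pos pR_pos 3)) 2
  have hl : IsLevelForm p d U (2 + k) :=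
    { le := Nat.le_add_right 2 k
      ker := hker
      mem := fun σ i l => (levelC p (2 + k)).algebraMap_mem (atP κ σ i l)
      small := fun σ hσ => (hk σ hσ).le }
  obtain ⟨Θ, hΘm, n, hn⟩ := hl.exists_exp hU
  obtain ⟨γ, hγ⟩ := exists_gen (p := p) hl.le
  obtain ⟨a, ha⟩ := exists_small_log Θ (rad2_pos (p := p)) 0
  have hfix : ∀ σ : G, galM σ Θ = Θ := fun σ =>
    eq_of_exp_log hγ (n := n + (0 + a)) fun τ hτ => by
      rw [← hn τ (levelGal_antitone (by omega) hτ), ← galM_smul,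
        ← galM_exp σ (ha τ (levelGal_antitone (by omega) hτ)),
        ← hn τ (levelGal_antitone (by omega) hτ)]
      exact map_gal_scalar σ (atP κ τ)
  choose A hA using fun i l => (Fermat.Agent.AxSenTate.fixed_padicComplex_iff p (Θ i l)).1
    fun σ => by rw [← gal_apply, ← galM_apply, hfix σ]
  have hΘ : (Matrix.of A).map (algebraMap ℚ_[p] Cp) = Θ := Matrix.ext fun i l => hA i l
  exact ⟨Matrix.of A, n, ⟨1, 2 + k, by rw [FA.Sen.conj_one]; exact hl, hΘ ▸ hΘm, n,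
    fun σ hσ => by rw [FA.Sen.conj_one, hΘ]; exact hn σ hσ⟩, fun τ hτ => by rw [hΘ]; exact hn τ hτ⟩

/-- The part at `p` is Hodge–Tate at `p` if the representation is. -/
theorem isHodgeTate_pPart {ρ : GQ →* Matrix d d ℚ_[p]} (hc : Continuous ρ)
    (hcomm : ∀ σ τ : GQ, Commute (ρ σ) (ρ τ)) (h : IsHodgeTate (cpRep (atP ρ))) :
    IsHodgeTate (cpRep (atP (pPart hc hcomm))) := by
  obtain ⟨P, v, hP⟩ := h
  obtain ⟨H, hH, hHeq⟩ := exists_open_eq_pPart hc hcomm
  refine isHodgeTate_of_open (isRep_cpRep (isQpRep_atP (continuous_pPart hc hcomm)))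
    (isOpen_locPre hH) (P := P) (j := v) fun τ hτ => ?_
  have e : cpRep (atP (pPart hc hcomm)) τ = cpRep (atP ρ) τ := by
    simp only [cpRep, atP]
    rw [hHeq _ hτ]
  rw [← hP τ]
  simp only [FA.Sen.conj, e]

/-- **An abelian representation Hodge–Tate at `p` is potentially a sum of powers of `χ`.** -/
theorem exists_isCycSum {ρ : GQ →* Matrix d d ℚ_[p]} (hc : Continuous ρ)
    (hcomm : ∀ σ τ : GQ, Commute (ρ σ) (ρ τ)) (h : IsHodgeTate (cpRep (atP ρ))) :
    ∃ H : Subgroup GQ, IsOpen (H : Set GQ) ∧ ∃ (C : (Matrix d d ℚ_[p])ˣ) (j : d → ℤ),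
      IsCycSum ρ H C j := by
  set κ := pPart hc hcomm
  obtain ⟨A, n, hS, hn⟩ := exists_rational_exp hc hcomm
  obtain ⟨Q, v, hQ⟩ := (isHodgeTate_iff_semisimpleInt
    (isRep_cpRep (isQpRep_atP (continuous_pPart hc hcomm))) hS).1 (isHodgeTate_pPart hc hcomm h)
  obtain ⟨C, w, hC⟩ := exists_diagonal_of_conj hQ
  set c := cpUnit C
  set D : Md := Matrix.diagonal fun i => (w i : Cp) with hD
  have hAD : A.map (algebraMap ℚ_[p] Cp) = (c : Md) * D * (↑c⁻¹ : Md) := by
    rw [Units.eq_mul_inv_iff_mul_eq]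
    show A.map _ * (C : Matrix d d ℚ_[p]).map (algebraMap ℚ_[p] Cp) =
      (C : Matrix d d ℚ_[p]).map (algebraMap ℚ_[p] Cp) * D
    rw [← Matrix.map_mul, hC, Matrix.map_mul, Matrix.diagonal_map (map_zero _)]
    simp only [hD, map_intCast]
  obtain ⟨a, ha⟩ := exists_exp_smul_intDiagonal (p := p) w
  obtain ⟨b, hb⟩ := exists_small_log (A.map (algebraMap ℚ_[p] Cp)) (rad2_pos (p := p)) 0
  set N := n + a + (0 + b)
  have hloc : ∀ τ ∈ levelGal p N,
      atP κ τ * (C : Matrix d d ℚ_[p]) = (C : Matrix d d ℚ_[p]) * tateRep w τ := fun τ hτ => by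
    obtain ⟨hs, he⟩ := ha τ (levelGal_antitone (by omega) hτ)
    have eΘ : logChi p τ • A.map (algebraMap ℚ_[p] Cp) =
        (↑(c⁻¹)⁻¹ : Md) * (logChi p τ • D) * (↑c⁻¹ : Md) := by
      rw [inv_inv, hAD, mul_smul_comm, smul_mul_assoc]
    have h1 : cpRep (atP κ) τ = (c : Md) * twistRep w τ * (↑c⁻¹ : Md) := by
      rw [hn τ (levelGal_antitone (by omega) hτ), eΘ, exp_conj_small c⁻¹ hs
        (by rw [← eΘ]; exact hb τ (levelGal_antitone (by omega) hτ)), inv_inv, he]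
    refine Matrix.map_injective (algebraMap ℚ_[p] Cp).injective ?_
    show (atP κ τ * (C : Matrix d d ℚ_[p])).map (algebraMap ℚ_[p] Cp) =
      ((C : Matrix d d ℚ_[p]) * tateRep w τ).map (algebraMap ℚ_[p] Cp)
    rw [Matrix.map_mul, Matrix.map_mul,
      show (tateRep w τ).map (algebraMap ℚ_[p] Cp) = twistRep w τ from
        congrFun (cpRep_tateRep w) τ,
      show (atP κ τ).map (algebraMap ℚ_[p] Cp) = cpRep (atP κ) τ from rfl, h1]
    exact Units.inv_mul_cancel_right _ c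
  obtain ⟨H₁, hH₁, hH₁eq⟩ := exists_open_eq_pPart hc hcomm
  refine ⟨H₁ ⊓ cycPre (levelGal p N), ?_, C, w, fun σ hσ => ?_⟩
  · rw [Subgroup.coe_inf]
    exact hH₁.inter (isOpen_cycPre (isOpen_levelGal N))
  · obtain ⟨τ, hτ, he⟩ := exists_of_mem_cycPre hσ.2
    have e : ρ σ = atP κ τ := (hH₁eq σ hσ.1).trans
      (pPart_congr hc hcomm (he.symm.trans (cycP_loc τ).symm))
    rw [e, hloc τ hτ, tateRep, he]

/-- **Fontaine–Mazur for abelian representations of the Galois group of `ℚ`.** -/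
theorem abelian_geometric_iff {ρ : GQ →* Matrix d d ℚ_[p]} (hc : Continuous ρ)
    (hcomm : ∀ σ τ : GQ, Commute (ρ σ) (ρ τ)) :
    (IsHodgeTate (cpRep (atP ρ)) ↔ ∃ H : Subgroup GQ, IsOpen (H : Set GQ) ∧
      ∃ (C : (Matrix d d ℚ_[p])ˣ) (j : d → ℤ), IsCycSum ρ H C j) ∧
    (IsDeRham (atP ρ) ↔ IsHodgeTate (cpRep (atP ρ))) := by
  refine ⟨⟨exists_isCycSum hc hcomm, fun ⟨H, hH, C, j, h⟩ =>
    (isDeRham_of_isCycSum hc hH h).isHodgeTate⟩, fun h => h.isHodgeTate, fun h => ?_⟩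
  obtain ⟨H, hH, C, j, hj⟩ := exists_isCycSum hc hcomm h
  exact isDeRham_of_isCycSum hc hH hj

/-- The exponents are the Hodge–Tate weights at `p`. -/
theorem card_weight_eq_of_isCycSum {ρ : GQ →* Matrix d d ℚ_[p]} {H : Subgroup GQ}
    (hH : IsOpen (H : Set GQ)) {C : (Matrix d d ℚ_[p])ˣ} {j : d → ℤ} (h : IsCycSum ρ H C j)
    {P : Mdˣ} {w : d → ℤ}
    (hP : ∀ τ, FA.Sen.conj (cpRep (atP ρ)) P τ = Matrix.diagonal fun i => twist p (w i) τ)
    (v : ℤ) : (univ.filter fun i => w i = v).card = (univ.filter fun i => j i = v).card :=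
  card_weight_eq_of_open (isOpen_locPre hH) (fun τ _ => hP τ) (conj_of_isCycSum h) v

end FA.AbelianGeometric
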